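/-
S33, A-half, bricks (S3)+(S4) of helper16's split (report 1307): **Stable + Dichotomy** (helper61).
Mathlib + `Alg16/MinPrimes` (for `IsAnnWitness`) only.

* `map_mem_of_stable` : if `ρ(G)` spans `End_T V`, a `ρ`-stable `T`-submodule of `V` is stable
  under every `T`-endomorphism;
* `repr_smul_mem_of_stable` : hence for `w ∈ W` and a basis `b`, `(b.repr w i) • v ∈ W` for all `v`;
* `dichotomy` : for an equivariant `T`-linear `Φ : V → X` into a `Z`-torsion-free module (`T`
  integral over `Z`), a prime `𝔭` of `T` and `a` with `Ann a = 𝔭`, `a ∉ 𝔭`: either `Φ` kills `a V`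
  or `Φ` is injective on `a V`.
-/
import Mathlib
import Fermat.Agent.S33P.Alg16.MinPrimes

set_option autoImplicit false

namespace Fermat.Agent.S33P.A4Abs61

open Fermat.Agent.S33P.Alg16.MinPrimes

section Stable

variable {T : Type*} [CommRing T] {V : Type*} [AddCommGroup V] [Module T V]
  {G : Type*} [Monoid G] (ρ : G →* Module.End T V)

/-- If `ρ(G)` spans `End_T V`, a `ρ`-stable submodule is stable under every endomorphism. -/
theorem map_mem_of_stable (hspan : Submodule.span T (Set.range ρ) = ⊤) (W : Submodule T V)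
    (hW : ∀ g, ∀ w ∈ W, ρ g w ∈ W) (f : Module.End T V) {w : V} (hw : w ∈ W) : f w ∈ W := by
  have hf : f ∈ Submodule.span T (Set.range ρ) := by
    rw [hspan]
    exact Submodule.mem_top
  induction hf using Submodule.span_induction with
  | mem x hx =>
    obtain ⟨g, rfl⟩ := hx
    exact hW g w hw
  | zero =>
    rw [LinearMap.zero_apply]
    exact W.zero_mem
  | add x y _ _ hx hy =>
    rw [LinearMap.add_apply]
    exact W.add_mem hx hy
  | smul c x _ hx =>
    rw [LinearMap.smul_apply]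
    exact W.smul_mem c hx

/-- If `ρ(G)` spans `End_T V` and `W` is `ρ`-stable, then for `w ∈ W` every coordinate `c` of `w`
in a basis satisfies `c • V ⊆ W`. -/
theorem repr_smul_mem_of_stable (hspan : Submodule.span T (Set.range ρ) = ⊤) (W : Submodule T V)
    (hW : ∀ g, ∀ w ∈ W, ρ g w ∈ W) {ι : Type*} (b : Module.Basis ι T V) {w : V} (hw : w ∈ W)
    (i : ι) (v : V) : b.repr w i • v ∈ W := by
  have h := map_mem_of_stable ρ hspan W hW ((b.coord i).smulRight v) hw
  rwa [LinearMap.smulRight_apply, Module.Basis.coord_apply] at h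

end Stable

section Dichotomy

variable {Z : Type*} [CommRing Z] {T : Type*} [CommRing T] [Algebra Z T] [Algebra.IsIntegral Z T]
  {V : Type*} [AddCommGroup V] [Module T V] [Module.Free T V]
  {G : Type*} [Monoid G] (ρ : G →* Module.End T V)
  {X : Type*} [AddCommGroup X] [Module T X] (ρX : G → Module.End T X)

/-- An element `t ∉ 𝔭` of a ring `T` integral over `Z` divides, modulo the prime `𝔭`, the image of
a nonzero element of `Z`. -/
theorem exists_mul_sub_mem (𝔭 : Ideal T) [𝔭.IsPrime] {t : T} (ht : t ∉ 𝔭) :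
    ∃ z : Z, z ≠ 0 ∧ ∃ s : T, algebraMap Z T z - t * s ∈ 𝔭 := by
  have : Nontrivial T := ⟨⟨0, t, fun h => ht (h ▸ 𝔭.zero_mem)⟩⟩
  have : Nontrivial Z := (algebraMap Z T).domain_nontrivial
  have hint : IsIntegral Z (Ideal.Quotient.mkₐ Z 𝔭 t) :=
    (Algebra.IsIntegral.isIntegral (R := Z) t).map (Ideal.Quotient.mkₐ Z 𝔭)
  have hne : Ideal.Quotient.mkₐ Z 𝔭 t ≠ 0 := by
    rw [Ideal.Quotient.mkₐ_eq_mk, Ne, Ideal.Quotient.eq_zero_iff_mem]
    exact ht
  obtain ⟨z, hz, s', hs'⟩ := hint.isAlgebraic.exists_nonzero_dvd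
    (mem_nonZeroDivisors_of_ne_zero hne)
  obtain ⟨s, rfl⟩ := Ideal.Quotient.mk_surjective s'
  refine ⟨z, hz, s, ?_⟩
  rw [← Ideal.Quotient.eq_zero_iff_mem, map_sub, map_mul, sub_eq_zero]
  rw [Ideal.Quotient.mkₐ_eq_mk] at hs'
  rw [← hs']
  rfl

/-- **Dichotomy at a prime with an annihilator witness.** -/
theorem dichotomy (hspan : Submodule.span T (Set.range ρ) = ⊤) (Φ : V →ₗ[T] X)
    (hΦ : ∀ g v, Φ (ρ g v) = ρX g (Φ v))
    (htf : ∀ z : Z, z ≠ 0 → ∀ x : X, algebraMap Z T z • x = 0 → x = 0)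
    (𝔭 : Ideal T) [𝔭.IsPrime] (a : T) (ha : IsAnnWitness 𝔭 a) :
    (∀ v : V, Φ (a • v) = 0) ∨ (∀ v : V, Φ (a • v) = 0 → a • v = 0) := by
  classical
  -- the stable submodule `W = ker (Φ ∘ (a • ·))`
  let W : Submodule T V := LinearMap.ker (Φ ∘ₗ (a • (LinearMap.id : V →ₗ[T] V)))
  have hWmem : ∀ w : V, w ∈ W ↔ Φ (a • w) = 0 := by
    intro w
    show (Φ ∘ₗ (a • (LinearMap.id : V →ₗ[T] V))) w = 0 ↔ _
    rw [LinearMap.comp_apply, LinearMap.smul_apply, LinearMap.id_apply]
  have hW : ∀ g, ∀ w ∈ W, ρ g w ∈ W := by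
    intro g w hw
    rw [hWmem] at hw ⊢
    rw [← map_smul, hΦ, hw, map_zero]
  by_cases h : ∃ t : T, t ∉ 𝔭 ∧ ∀ v : V, Φ (a • t • v) = 0
  · -- `Φ` kills `a • V`
    left
    obtain ⟨t, ht, hkill⟩ := h
    obtain ⟨z, hz, s, hs⟩ := exists_mul_sub_mem (Z := Z) 𝔭 ht
    have hmul : algebraMap Z T z * a = t * s * a := by
      have := ha.mul_eq_zero hs
      rw [sub_mul, sub_eq_zero] at this
      exact this
    intro v
    apply htf z hz
    rw [← map_smul, smul_smul, hmul]
    have h1 : (t * s * a) • v = a • t • (s • v) := by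
      rw [smul_smul, smul_smul]
      congr 1
      ring
    rw [h1]
    exact hkill (s • v)
  · -- `Φ` is injective on `a • V`
    right
    push Not at h
    intro w hw
    have hwW : w ∈ W := (hWmem w).2 hw
    let b := Module.Free.chooseBasis T V
    have hc : ∀ i, b.repr w i * a = 0 := by
      intro i
      apply ha.mul_eq_zero
      by_contra hnot
      obtain ⟨v, hv⟩ := h (b.repr w i) hnot
      exact hv ((hWmem _).1 (repr_smul_mem_of_stable ρ hspan W hW b hwW i v))
    apply b.repr.injective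
    rw [map_smul, map_zero]
    ext i
    rw [Finsupp.smul_apply, smul_eq_mul, mul_comm, hc, Finsupp.zero_apply]

end Dichotomy

end Fermat.Agent.S33P.A4Abs61
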